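import Fermat.Agent.S55.Cap.C1H239.Dict
import Fermat.Agent.S55.PT.LevelsNormal

/-!
# S55 / A8 (helper239): finite-level reduction for level-constant cochains in `Ind_U 𝕁`

* `exists_level_of_isLC₁` : a level-constant cochain is right-invariant under `L.U` for some
  (normal) level `L : Tow.Level S`;
* `exists_lift_one` : every element of `Ind_U 𝕁` has all its coefficients in `J(L')` for all
  sufficiently high levels `L'`;
* `exists_level_lift` : a level-constant `b : G_ℚ → Ind_U 𝕁` is right-`L.U`-invariant with all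
  values in `Ind_U J(L)` for some level `L` above any two given levels.
-/

set_option autoImplicit false
set_option linter.unusedVariables false
set_option linter.unusedSectionVars false
set_option linter.style.haveILetI false

noncomputable section

namespace Fermat.Agent.S55.Cap.H239

open Fermat.Agent.S55.PT Fermat.Agent.S55.Tow Fermat.Agent.S55.Cap

variable {S : Finset Nat.Primes}

/-- a level-constant cochain is right-invariant under a normal level -/
lemma exists_level_of_isLC₁ {X : Type} (f : Tow.GQ → X) (hf : (globalLevels S).IsLC₁ f) :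
    ∃ L : Level S, ∀ g s : Tow.GQ, s ∈ L.U → f (g * s) = f g := by
  obtain ⟨W, hW, hfW⟩ := hf
  obtain ⟨V, ⟨F, hF, hVF⟩, hVW, hVn⟩ := globalLevels_normal_cofinal724 S W hW
  refine ⟨⟨F, hF, ?_⟩, fun g s hs => hfW g s (hVW ?_)⟩
  · rw [← hVF]
    exact hVn
  · rw [hVF]
    exact hs

/-- every element of `Ind_U 𝕁` lives at all sufficiently high levels -/
lemma exists_lift_one (U : Subgroup Tow.GQ) (F : IndM U (JJS S)) :
    ∃ L : Level S, ∀ L' : Level S, L ≤ L' →
      ∃ β : IndM U (JL L'), IndM.map U (ofJ L') β = F := by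
  induction F using IndM.induction_on with
  | h0 => exact ⟨capBot S, fun L' _ => ⟨0, map_zero _⟩⟩
  | hadd F F' hF hF' =>
    obtain ⟨L, hL⟩ := hF
    obtain ⟨L', hL'⟩ := hF'
    refine ⟨capSup S L L', fun L'' h => ?_⟩
    obtain ⟨β, hβ⟩ := hL L'' ((le_capSup_left S L L').trans h)
    obtain ⟨β', hβ'⟩ := hL' L'' ((le_capSup_right S L L').trans h)
    exact ⟨β + β', by rw [map_add, hβ, hβ']⟩
  | hsingle x a =>
    obtain ⟨L, hL⟩ := JJS.smooth S a
    refine ⟨L, fun L' h => ?_⟩
    obtain ⟨y, hy⟩ := exists_ofJ L' a (fun u hu => hL u (Level.U_anti h hu))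
    exact ⟨IndM.single U x y, by rw [IndM.map_single, hy]⟩

/-- **finite-level reduction** -/
theorem exists_level_lift (U : Subgroup Tow.GQ) (b : Tow.GQ → IndM U (JJS S))
    (hb : (globalLevels S).IsLC₁ b) (L₀ L₁ : Level S) :
    ∃ L : Level S, L₀ ≤ L ∧ L₁ ≤ L ∧ (∀ g s : Tow.GQ, s ∈ L.U → b (g * s) = b g) ∧
      ∀ g, ∃ β : IndM U (JL L), IndM.map U (ofJ L) β = b g := by
  classical
  obtain ⟨Lb, hLb⟩ := exists_level_of_isLC₁ b hb
  have hout : ∀ g : Tow.GQ, b ((QuotientGroup.mk g : Lb.Gal).out) = b g := by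
    intro g
    obtain ⟨u, hu⟩ := QuotientGroup.mk_out_eq_mul Lb.U g
    rw [hu]
    exact hLb g u u.2
  choose Lc hLc using fun c : Lb.Gal => exists_lift_one U (b c.out)
  haveI : Nonempty (Level S) := ⟨capBot S⟩
  haveI : IsDirectedOrder (Level S) :=
    ⟨fun a a' => ⟨capSup S a a', le_capSup_left S a a', le_capSup_right S a a'⟩⟩
  obtain ⟨M, hM⟩ := Finite.exists_le Lc
  refine ⟨capSup S (capSup S L₀ L₁) (capSup S Lb M),
    (le_capSup_left S L₀ L₁).trans (le_capSup_left S _ _),
    (le_capSup_right S L₀ L₁).trans (le_capSup_left S _ _), fun g s hs => ?_, fun g => ?_⟩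
  · exact hLb g s (Level.U_anti ((le_capSup_left S Lb M).trans (le_capSup_right S _ _)) hs)
  · obtain ⟨β, hβ⟩ := hLc (QuotientGroup.mk g) _
      (((hM (QuotientGroup.mk g)).trans (le_capSup_right S Lb M)).trans (le_capSup_right S _ _))
    exact ⟨β, by rw [hβ, hout]⟩

end Fermat.Agent.S55.Cap.H239
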