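import Fermat.Agent.S55.Cap.C1H239.ClassMod
import Fermat.Agent.S55.Cap.C1H239.Reduce

/-!
# S55 / A8-C1 (helper239): `C1AdapterSpec`

`c1Adapter : Cap.C1AdapterSpec p S`, i.e.
`(∃ D : TowerDatum S, D.IsGoodMu p ∧ ClTorsion D) → SUnitsDivSpec S p → C1Spec p S`:
`H¹(G_S(K_U), 𝕁/𝔼)` has no `p`-part, in cochain form.

Proof (blueprint `coord/S55-K-A8.md` §4.3, helper303):
1. finite-level reduction (`exists_level_lift`): `b = ofJ ∘ β`, `β : G_ℚ → Ind_U J(L)`, `L ⊇ μ_p`;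
2. `f = j ∘ β : G_ℚ → Ind_U C(L)` is a 1-cocycle (GD4 ⇐);
3. the Shapiro restriction of `f` is a coboundary on (the preimage of) a Sylow `p`-subgroup of
   `Gal(L/L₁)` (GD1), hence `m₀ • f = d⁰ c₁`, `m₀` prime to `p` (`shapiro_transfer`);
4. capitulation (`exists_cap`, GD11 + GD5 + GD7): `tr (n • c₁) = j(Q)`, `Q ∈ Ind_U J(L')`;
5. `(n m₀) • β(g) - (g Q - Q)` is killed by `j`, hence lies in `Ind_U 𝔼` (GD4 ⇒).
-/

set_option autoImplicit false
set_option linter.unusedVariables false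
set_option linter.unusedSectionVars false
set_option linter.style.haveILetI false

noncomputable section

namespace Fermat.Agent.S55.Cap.H239

open Fermat.Agent.S55.PT Fermat.Agent.S55.Tow Fermat.Agent.S55.Cap CategoryTheory groupCohomology

variable {S : Finset Nat.Primes} {p : ℕ} [Fact p.Prime]

/-- `μ_p` lives at some level (from `SUnitsDivSpec`, part 2) -/
lemma exists_hasMu (h : ∃ L₀ : Level S, ∀ ζ : Qbar, ζ ^ p = 1 → ζ ∈ L₀.F) :
    ∃ L₀ : Level S, L₀.HasMu p := by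
  obtain ⟨L₀, hL₀⟩ := h
  haveI : NeZero ((p : ℕ) : Qbar) := ⟨by exact_mod_cast (Fact.out : p.Prime).ne_zero⟩
  obtain ⟨ζ, hζ⟩ := HasEnoughRootsOfUnity.exists_primitiveRoot Qbar p
  exact ⟨L₀, ζ, hL₀ ζ hζ.pow_eq_one, hζ⟩

/-- `H¹ = 0` in cochain form -/
lemma exists_coboundary_of_isZero {k H : Type} [CommRing k] [Group H] (A : Rep.{0, 0, 0} k H)
    (h : Limits.IsZero (groupCohomology A 1)) (z : H → A.V)
    (hz : ∀ s t, z (s * t) = A.ρ s (z t) + z s) : ∃ y : A.V, ∀ s, z s = A.ρ s y - y := by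
  have hmem : z ∈ cocycles₁ A := (mem_cocycles₁_iff z).2 hz
  haveI : Subsingleton (groupCohomology A 1) := ModuleCat.isZero_iff_subsingleton.1 h
  have h0 : H1π A ⟨z, hmem⟩ = 0 := Subsingleton.elim _ _
  rw [H1π_eq_zero_iff] at h0
  obtain ⟨y, hy⟩ := h0
  exact ⟨y, fun s => (congrFun hy s).symm⟩

/-- the Shapiro restriction is a coboundary on the preimage of a Sylow `p`-subgroup of
`Gal(L/L₁)` (GD1) -/
theorem exists_coboundary_sylow {D : TowerDatum S} (hD : D.IsGoodMu p) {L₁ L : Level S}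
    (h₁ : L₁ ≤ L) (hμ : L.HasMu p) (z : Tow.GQ → CL D L)
    (hzinv : ∀ g s : Tow.GQ, s ∈ L.U → z (g * s) = z g)
    (hzc : ∀ u ∈ L₁.U, ∀ g : Tow.GQ, z (u * g) = z u + u • z g) :
    ∃ (P : Subgroup Tow.GQ) (y : CL D L), P.relIndex L₁.U ≠ 0 ∧ (P.relIndex L₁.U).Coprime p ∧
      ∀ t ∈ P, t ∈ L₁.U → z t = t • y - y := by
  classical
  set π : Tow.GQ →* L.Gal := QuotientGroup.mk' L.U with hπ
  set Ubar : Subgroup L.Gal := L₁.U.map π with hUbar
  have hker : π.ker ≤ L₁.U := by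
    rw [hπ, QuotientGroup.ker_mk']
    exact Level.U_anti h₁
  have hcomap : Ubar.comap π = L₁.U := Subgroup.comap_map_eq_self hker
  obtain ⟨P⟩ := (Sylow.nonempty : Nonempty (Sylow p Ubar))
  set Pbar : Subgroup L.Gal := (P : Subgroup Ubar).map Ubar.subtype with hPbar
  have hPle : Pbar ≤ Ubar := by
    rw [hPbar]
    exact Subgroup.map_subtype_le _
  have hPp : IsPGroup p Pbar := P.isPGroup'.map Ubar.subtype
  obtain ⟨hH1, -, -⟩ := hD.gd1 L hμ Pbar hPp
  -- lifts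
  have hout_mem : ∀ t : L.Gal, t ∈ Ubar → (t.out : Tow.GQ) ∈ L₁.U := by
    intro t ht
    rw [← hcomap, Subgroup.mem_comap]
    have : π t.out = t := QuotientGroup.out_eq' t
    rw [this]
    exact ht
  have hzout : ∀ g : Tow.GQ, z ((QuotientGroup.mk g : L.Gal).out) = z g := by
    intro g
    obtain ⟨u, hu⟩ := QuotientGroup.mk_out_eq_mul L.U g
    rw [hu]
    exact hzinv g u u.2
  -- the cocycle on `Pbar`
  obtain ⟨y, hy⟩ := exists_coboundary_of_isZero (T.resSub (D.C L) Pbar) hH1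
    (fun t => CL.val D L (z ((t : L.Gal).out)))
    (fun s t => by
      have hs : ((s : L.Gal).out : Tow.GQ) ∈ L₁.U := hout_mem _ (hPle s.2)
      have h1 : (QuotientGroup.mk ((s : L.Gal).out * (t : L.Gal).out) : L.Gal) =
          ((s * t : Pbar) : L.Gal) := by
        rw [QuotientGroup.mk_mul, QuotientGroup.out_eq', QuotientGroup.out_eq']
        rfl
      have h2 : z (((s * t : Pbar) : L.Gal).out) = z ((s : L.Gal).out * (t : L.Gal).out) := by
        rw [← h1, hzout]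
      rw [h2, hzc _ hs, map_add, CL.val_smul, QuotientGroup.out_eq', add_comm]
      rfl)
  refine ⟨Pbar.comap π, CL.of D L y, ?_, ?_, fun t ht htU => ?_⟩
  · rw [Subgroup.relIndex_comap, ← hUbar]
    have h3 : Pbar.subgroupOf Ubar = (P : Subgroup Ubar) :=
      Subgroup.comap_map_eq_self_of_injective Ubar.subtype_injective _
    rw [Subgroup.relIndex, h3]
    exact Subgroup.FiniteIndex.index_ne_zero
  · rw [Subgroup.relIndex_comap, ← hUbar]
    have h3 : Pbar.subgroupOf Ubar = (P : Subgroup Ubar) :=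
      Subgroup.comap_map_eq_self_of_injective Ubar.subtype_injective _
    rw [Subgroup.relIndex, h3]
    exact ((Nat.Prime.coprime_iff_not_dvd (Fact.out : p.Prime)).2 P.not_dvd_index).symm
  · have h4 := hy ⟨π t, ht⟩
    apply CL.val_injective
    rw [map_sub, CL.val_smul, CL.val_of]
    rw [← hzout t]
    exact h4

/-- **A8-C1** -/
theorem c1Adapter : C1AdapterSpec p S := by
  classical
  rintro ⟨D, hD, hT⟩ hdiv L₁ b hb hdb
  obtain ⟨L₀, hμ₀⟩ := exists_hasMu hdiv.2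
  obtain ⟨L, h₀, h₁, hbinv, hβ'⟩ := exists_level_lift L₁.U b hb L₀ L₁
  have hμ : L.HasMu p := hμ₀.mono h₀
  choose β hβ using hβ'
  have hinj := IndM.map_injective L₁.U (ofJ L) (ofJ_injective L)
  have hβinv : ∀ g s : Tow.GQ, s ∈ L.U → β (g * s) = β g := by
    intro g s hs
    apply hinj
    rw [hβ, hβ, hbinv g s hs]
  haveI : Finite (Tow.GQ ⧸ L₁.U) := Level.finiteGal L₁
  -- the cocycle `f = j ∘ β`
  set f : Tow.GQ → IndM L₁.U (CL D L) := fun g => IndM.map L₁.U (jL D L) (β g) with hf_def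
  have hf : ∀ g h, f (g * h) = f g + g • f h := by
    intro g h
    obtain ⟨e, he⟩ := hdb g h
    have h1 : IndM.map L₁.U (ofJ L) (g • β h - β (g * h) + β g) = IndM.map L₁.U (iEJ S) e := by
      rw [map_add, map_sub, IndM.map_smul' L₁.U (ofJ L) (ofJ_smul L), hβ, hβ, hβ, he]
    have h2 : IndM.map L₁.U (jL D L) (g • β h - β (g * h) + β g) = 0 := by
      apply indM_map_eq_zero
      intro x
      apply jL_eq_zero_of_ofJ_eq hD L _ (IndM.toF L₁.U e x)
      have := congrArg (fun F => IndM.toF L₁.U F x) h1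
      simpa only [IndM.map_apply] using this
    rw [map_add, map_sub, IndM.map_smul' L₁.U (jL D L) (jL_smul D L)] at h2
    show IndM.map L₁.U (jL D L) (β (g * h)) =
      IndM.map L₁.U (jL D L) (β g) + g • IndM.map L₁.U (jL D L) (β h)
    have h3 := sub_eq_zero.1 (by rw [← h2]; abel :
      IndM.map L₁.U (jL D L) (β g) + g • IndM.map L₁.U (jL D L) (β h) -
        IndM.map L₁.U (jL D L) (β (g * h)) = 0)
    exact h3.symm
  -- the Shapiro restriction
  have hone : ∀ u ∈ L₁.U, (u : Tow.GQ)⁻¹ • (((1 : Tow.GQ) : Tow.GQ ⧸ L₁.U)) =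
      ((1 : Tow.GQ) : Tow.GQ ⧸ L₁.U) := by
    intro u hu
    show (((u : Tow.GQ)⁻¹ * 1 : Tow.GQ) : Tow.GQ ⧸ L₁.U) = _
    rw [mul_one, QuotientGroup.eq, inv_inv, mul_one]
    exact hu
  obtain ⟨P, y, hm0, hmp, hy⟩ := exists_coboundary_sylow hD h₁ hμ
    (fun g => IndM.toF L₁.U (f g) ((1 : Tow.GQ) : Tow.GQ ⧸ L₁.U))
    (fun g s hs => by
      show IndM.toF L₁.U (IndM.map L₁.U (jL D L) (β (g * s))) _ = _
      rw [hβinv g s hs])
    (fun u hu g => by
      show IndM.toF L₁.U (f (u * g)) _ = _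
      rw [hf, toF_add, toF_smul, hone u hu])
  obtain ⟨c₁, hc₁⟩ := shapiro_transfer L₁.U P hm0 f hf y hy
  -- capitulation
  obtain ⟨n, L', h', Q, hn, hQ⟩ := exists_cap hD hT L₁.U L c₁
  refine ⟨n * P.relIndex L₁.U, IndM.map L₁.U (ofJ L') Q, Nat.Coprime.mul_left hn hmp,
    fun g => ?_⟩
  set R : IndM L₁.U (JL L') :=
    (n * P.relIndex L₁.U) • IndM.map L₁.U (trJL h') (β g) - (g • Q - Q) with hR
  have e1 : IndM.map L₁.U (ofJ L') (IndM.map L₁.U (trJL h') (β g)) = b g := by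
    have e0 : (ofJ L').comp (trJL h') = ofJ L := AddMonoidHom.ext (fun y => ofJ_trJL h' y)
    rw [← IndM.map_comp, e0, hβ]
  have hR1 : IndM.map L₁.U (ofJ L') R =
      (n * P.relIndex L₁.U) • b g - (g • IndM.map L₁.U (ofJ L') Q - IndM.map L₁.U (ofJ L') Q) := by
    rw [hR, map_sub, map_sub, indM_map_nsmul, e1, IndM.map_smul' L₁.U (ofJ L') (ofJ_smul L')]
  have e2 : IndM.map L₁.U (jL D L') (IndM.map L₁.U (trJL h') (β g)) =
      IndM.map L₁.U (trCL D h') (f g) := by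
    have e0 : (jL D L').comp (trJL h') = (trCL D h').comp (jL D L) :=
      AddMonoidHom.ext (fun y => (trCL_jL hD h' y).symm)
    rw [← IndM.map_comp, e0, IndM.map_comp]
  have hR2 : IndM.map L₁.U (jL D L') R = 0 := by
    rw [hR, map_sub, map_sub, indM_map_nsmul, e2, IndM.map_smul' L₁.U (jL D L') (jL_smul D L'),
      hQ, ← IndM.map_smul' L₁.U (trCL D h') (trCL_smul D h'), ← indM_map_nsmul, ← map_sub,
      ← map_sub, mul_nsmul', hc₁ g, smul_sub, smul_comm g n c₁, sub_self, map_zero]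
  have hR3 : ∀ x, ∃ a : SU S, iEJ S a = IndM.toF L₁.U (IndM.map L₁.U (ofJ L') R) x := by
    intro x
    have h5 : jL D L' (IndM.toF L₁.U R x) = 0 := by
      have := congrArg (fun F => IndM.toF L₁.U F x) hR2
      simpa only [IndM.map_apply, toF_zero] using this
    obtain ⟨ε, hε, hx⟩ := (jL_eq_zero_iff hD L' _).1 h5
    exact ⟨ofE L' ε hε, by rw [IndM.map_apply, hx, ofJ_diagL L' ε hε]⟩
  obtain ⟨e, he⟩ := indM_exists_map_eq L₁.U (iEJ S) _ hR3
  exact ⟨e, he.trans hR1⟩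

end Fermat.Agent.S55.Cap.H239
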