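import Fermat.Agent.S55.Cap.Mod

/-!
# S55 / A8 (helper239): dictionary between the big modules `𝔼 ⊂ 𝕁` and the finite levels

For a level `L : Tow.Level S`:

* `ofJq L q : J_q(L) →+ 𝕁_q`  (`(L.J q).V → JJ S q`), injective, `G_ℚ`-equivariant, with image the
  `L.U`-invariants, compatible with the transition maps `Level.trJ`;
* `JL L = ∏_{q ∈ S} J_q(L)` as a `G_ℚ`-module (type synonym), `ofJ L : JL L →+ 𝕁`;
* `ofE L e he : 𝔼` for an `S`-unit `e` of `L`, `exists_ofE` (the `L.U`-invariants of `𝔼`);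
* `ofJ_diag` : `ofJ L (diag e) = iEJ (ofE e)`.

Everything is sorry-free and uses only `Cap/Mod.lean` (helper303) and the frozen tower.
-/

set_option autoImplicit false
set_option linter.unusedVariables false
set_option linter.unusedSectionVars false
set_option linter.style.haveILetI false

noncomputable section

namespace Fermat.Agent.S55.Cap.H239

open Fermat.Agent.S55.PT Fermat.Agent.S55.Tow Fermat.Agent.S55.Cap

variable {S : Finset Nat.Primes}

/-! ### `J_q(L) → 𝕁_q` -/

lemma mk_locQ_mul (L : Level S) (q : Nat.Primes) (d : GQp q) (g : Tow.GQ) :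
    (QuotientGroup.mk (locQ q d * g) : L.Gal) =
      L.decHom q (QuotientGroup.mk d) * (QuotientGroup.mk g : L.Gal) := rfl

/-- the inclusion `J_q(L) → 𝕁_q`: `y ↦ (g ↦ y(ḡ))` -/
def ofJq (L : Level S) (q : Nat.Primes) : (L.J q).V →+ JJ S q where
  toFun y := JJ.mk S q (fun g => L.locCoe q (L.Jeval q y (QuotientGroup.mk g)))
    (fun d g => by
      show L.locCoe q (L.Jeval q y (QuotientGroup.mk (locQ q d * g))) = _
      rw [mk_locQ_mul, L.Jeval_mul, Level.locUnits_ρ_coe])
    ⟨L, fun u hu g => by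
      have : (QuotientGroup.mk (g * u) : L.Gal) = QuotientGroup.mk g := by
        rw [QuotientGroup.eq]
        have : (g * u)⁻¹ * g = u⁻¹ := by group
        rw [this]
        exact L.U.inv_mem hu
      show L.locCoe q (L.Jeval q y (QuotientGroup.mk (g * u))) = _
      rw [this]⟩
  map_zero' := by
    apply JJ.ext
    intro g
    rfl
  map_add' y y' := by
    apply JJ.ext
    intro g
    rfl

@[simp] lemma ev_ofJq (L : Level S) (q : Nat.Primes) (y : (L.J q).V) (g : Tow.GQ) :
    JJ.ev S q g (ofJq L q y) = L.locCoe q (L.Jeval q y (QuotientGroup.mk g)) := rfl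

lemma ofJq_injective (L : Level S) (q : Nat.Primes) : Function.Injective (ofJq L q) := by
  intro y y' h
  apply L.J_ext q
  intro g
  induction g using QuotientGroup.induction_on with
  | H g =>
    apply L.locCoe_injective q
    have := congrArg (JJ.ev S q g) h
    rwa [ev_ofJq, ev_ofJq] at this

lemma ofJq_smul (L : Level S) (q : Nat.Primes) (g : Tow.GQ) (y : (L.J q).V) :
    ofJq L q ((L.J q).ρ (QuotientGroup.mk g) y) = g • ofJq L q y := by
  apply JJ.ext
  intro g'
  rw [JJ.ev_smul, ev_ofJq, ev_ofJq, L.Jeval_ρ]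
  rfl

lemma ofJq_trJ {L L' : Level S} (h : L ≤ L') (q : Nat.Primes) (y : (L.J q).V) :
    ofJq L' q ((Level.trJ h q).hom y) = ofJq L q y := by
  apply JJ.ext
  intro g
  rfl

/-- the image of `ofJq L q` is the group of `L.U`-invariants of `𝕁_q` -/
lemma exists_ofJq (L : Level S) (q : Nat.Primes) (x : JJ S q) (hx : ∀ u ∈ L.U, u • x = x) :
    ∃ y : (L.J q).V, ofJq L q y = x := by
  have hinv : ∀ (g u : Tow.GQ), u ∈ L.U → JJ.ev S q (g * u) x = JJ.ev S q g x := by
    intro g u hu
    have := congrArg (JJ.ev S q g) (hx u hu)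
    rwa [JJ.ev_smul] at this
  have hfix : ∀ (g : Tow.GQ) (d : GQp q), d ∈ L.V q →
      (unitsQpbar q).ρ d (JJ.ev S q g x) = JJ.ev S q g x := by
    intro g d hd
    rw [← JJ.ev_mul_left]
    have h1 : locQ q d * g = g * (g⁻¹ * locQ q d * g) := by group
    rw [h1]
    exact hinv g _ (Level.conj_mem_U' S L hd g)
  have hout : ∀ g : Tow.GQ, JJ.ev S q ((QuotientGroup.mk g : L.Gal).out) x = JJ.ev S q g x := by
    intro g
    obtain ⟨u, hu⟩ := QuotientGroup.mk_out_eq_mul L.U g
    rw [hu]
    exact hinv g u u.2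
  let yf : L.Gal → (L.locUnits q).V := fun c => L.locMk q (JJ.ev S q c.out x) (hfix c.out)
  have hyf : ∀ g : Tow.GQ, L.locCoe q (yf (QuotientGroup.mk g)) = JJ.ev S q g x := fun g => hout g
  refine ⟨⟨yf, fun d c => ?_⟩, ?_⟩
  · induction d using QuotientGroup.induction_on with
    | H d =>
      induction c using QuotientGroup.induction_on with
      | H g =>
        apply L.locCoe_injective q
        rw [← mk_locQ_mul, hyf, Level.locUnits_ρ_coe, hyf, JJ.ev_mul_left]
  · apply JJ.ext
    intro g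
    exact hyf g

/-! ### `J(L) = ∏_{q ∈ S} J_q(L)` as a `G_ℚ`-module -/

/-- `J(L) = ∏_{q ∈ S} J_q(L)` -/
def JL (L : Level S) : Type := (q : ↥S) → (L.J q.1).V

instance JL.instAddCommGroup (L : Level S) : AddCommGroup (JL L) :=
  inferInstanceAs (AddCommGroup ((q : ↥S) → (L.J q.1).V))

/-- the `q`-component -/
def JL.proj (L : Level S) (q : ↥S) : JL L →+ (L.J q.1).V := Pi.evalAddMonoidHom _ q

/-- constructor -/
def JL.mk (L : Level S) (y : (q : ↥S) → (L.J q.1).V) : JL L := y

@[simp] lemma JL.proj_mk (L : Level S) (y : (q : ↥S) → (L.J q.1).V) (q : ↥S) :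
    JL.proj L q (JL.mk L y) = y q := rfl

lemma JL.ext {L : Level S} {y y' : JL L} (h : ∀ q, JL.proj L q y = JL.proj L q y') : y = y' :=
  funext h

instance JL.instDistribMulAction (L : Level S) : DistribMulAction Tow.GQ (JL L) where
  smul g y := fun q => (L.J q.1).ρ (QuotientGroup.mk g) (y q)
  one_smul y := by
    funext q
    show (L.J q.1).ρ (QuotientGroup.mk (1 : Tow.GQ)) (y q) = y q
    rw [QuotientGroup.mk_one, map_one, Module.End.one_apply]
  mul_smul g h y := by
    funext q
    show (L.J q.1).ρ (QuotientGroup.mk (g * h)) (y q) =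
      (L.J q.1).ρ (QuotientGroup.mk g) ((L.J q.1).ρ (QuotientGroup.mk h) (y q))
    rw [QuotientGroup.mk_mul, map_mul, Module.End.mul_apply]
  smul_zero g := by
    funext q
    exact map_zero ((L.J q.1).ρ (QuotientGroup.mk g))
  smul_add g y y' := by
    funext q
    exact map_add ((L.J q.1).ρ (QuotientGroup.mk g)) (y q) (y' q)

@[simp] lemma JL.proj_smul (L : Level S) (q : ↥S) (g : Tow.GQ) (y : JL L) :
    JL.proj L q (g • y) = (L.J q.1).ρ (QuotientGroup.mk g) (JL.proj L q y) := rfl

/-- the inclusion `J(L) → 𝕁` -/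
def ofJ (L : Level S) : JL L →+ JJS S :=
  AddMonoidHom.mk' (fun y q => ofJq L q.1 (y q)) (fun y y' => by
    funext q
    exact map_add (ofJq L q.1) (y q) (y' q))

@[simp] lemma proj_ofJ (L : Level S) (q : ↥S) (y : JL L) :
    JJS.proj S q (ofJ L y) = ofJq L q.1 (JL.proj L q y) := rfl

lemma ofJ_injective (L : Level S) : Function.Injective (ofJ L) := by
  intro y y' h
  apply JL.ext
  intro q
  exact ofJq_injective L q.1 (congrArg (JJS.proj S q) h)

lemma ofJ_smul (L : Level S) (g : Tow.GQ) (y : JL L) : ofJ L (g • y) = g • ofJ L y :=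
  JJS.ext S fun q => ofJq_smul L q.1 g (y q)

/-- the image of `ofJ L` is the group of `L.U`-invariants of `𝕁` -/
lemma exists_ofJ (L : Level S) (x : JJS S) (hx : ∀ u ∈ L.U, u • x = x) :
    ∃ y : JL L, ofJ L y = x := by
  have h : ∀ q : ↥S, ∃ y : (L.J q.1).V, ofJq L q.1 y = JJS.proj S q x := fun q =>
    exists_ofJq L q.1 _ (fun u hu => by
      have := congrArg (JJS.proj S q) (hx u hu)
      rwa [JJS.proj_smul] at this)
  choose y hy using h
  exact ⟨JL.mk L y, JJS.ext S fun q => hy q⟩

/-- the transition map `J(L) → J(L')` -/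
def trJL {L L' : Level S} (h : L ≤ L') : JL L →+ JL L' :=
  AddMonoidHom.mk' (fun y q => (Level.trJ h q.1).hom (y q)) (fun y y' => by
    funext q
    exact map_add (Level.trJ h q.1).hom (y q) (y' q))

@[simp] lemma proj_trJL {L L' : Level S} (h : L ≤ L') (q : ↥S) (y : JL L) :
    JL.proj L' q (trJL h y) = (Level.trJ h q.1).hom (JL.proj L q y) := rfl

lemma ofJ_trJL {L L' : Level S} (h : L ≤ L') (y : JL L) : ofJ L' (trJL h y) = ofJ L y :=
  JJS.ext S fun q => ofJq_trJ h q.1 (y q)

lemma trJL_smul {L L' : Level S} (h : L ≤ L') (g : Tow.GQ) (y : JL L) :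
    trJL h (g • y) = g • trJL h y := by
  apply ofJ_injective L'
  rw [ofJ_trJL, ofJ_smul, ofJ_smul, ofJ_trJL]

/-! ### `S`-units -/

/-- an `S`-unit of `L` as an element of `𝔼` -/
def ofE (L : Level S) (e : L.units.V) (he : L.IsSUnit e) : SU S :=
  SU.mk S (L.unitsCoe e) he ⟨L, fun g hg => L.unitsCoe_fixed e g hg⟩

@[simp] lemma val_ofE (L : Level S) (e : L.units.V) (he : L.IsSUnit e) :
    SU.val S (ofE L e he) = L.unitsCoe e := rfl

/-- the `L.U`-invariants of `𝔼` are the `S`-units of `L` -/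
lemma exists_ofE (L : Level S) (x : SU S) (hx : ∀ u ∈ L.U, u • x = x) :
    ∃ (e : L.units.V) (he : L.IsSUnit e), ofE L e he = x := by
  refine ⟨L.unitsMk (SU.val S x) (fun g hg => ?_), SU.isSUq S x, ?_⟩
  · have := congrArg (SU.val S) (hx g hg)
    rwa [SU.val_smul] at this
  · apply SU.ext
    rfl

lemma ofJq_diag (L : Level S) (q : Nat.Primes) (e : L.units.V) (he : L.IsSUnit e) :
    ofJq L q ((L.diag q).hom e) = iEJq S q (ofE L e he) := by
  apply JJ.ext
  intro g
  rfl

/-- the diagonal element of `J(L)` attached to `e ∈ Lˣ` -/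
def diagL (L : Level S) (e : L.units.V) : JL L := JL.mk L (fun q => (L.diag q.1).hom e)

@[simp] lemma proj_diagL (L : Level S) (e : L.units.V) (q : ↥S) :
    JL.proj L q (diagL L e) = (L.diag q.1).hom e := rfl

lemma ofJ_diagL (L : Level S) (e : L.units.V) (he : L.IsSUnit e) :
    ofJ L (diagL L e) = iEJ S (ofE L e he) :=
  JJS.ext S fun q => ofJq_diag L q.1 e he

end Fermat.Agent.S55.Cap.H239
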