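import Fermat.Agent.S55.Cap.IndM

/-!
# S55 / A8-C1 (helper239): abstract Shapiro (degree 1, `Ind`) and transfer, cochain form

Pure algebra (Mathlib + `Cap/IndM`).  `G` a group, `C` a `G`-module.

* `toF_smul` : the coefficients of `g • F`, `F ∈ Ind_U C`;
* `transfer` : a 1-cocycle `z : H → C` which is a coboundary on a subgroup `P` of finite index
  `m` has `m • z` a coboundary;
* `shapiro_ind` : a 1-cocycle `f : G → Ind_U C` whose Shapiro restriction `u ↦ f(u)(1̄)` is a
  coboundary on `U` is a coboundary;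
* `shapiro_transfer` : the combination: `P ≤ U`, `u ↦ f(u)(1̄)` a coboundary on `P`
  ⇒ `[U : P] • f` is a coboundary.
-/

set_option autoImplicit false
set_option linter.unusedSectionVars false
set_option linter.style.haveILetI false
set_option linter.unusedVariables false

noncomputable section

namespace Fermat.Agent.S55.Cap.H239

open Fermat.Agent.S55.Cap

variable {G : Type} [Group G] {C : Type} [AddCommGroup C] [DistribMulAction G C]

lemma indM_ext {U : Subgroup G} {F F' : IndM U C}
    (h : ∀ x, IndM.toF U F x = IndM.toF U F' x) : F = F' := Finsupp.ext h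

lemma toF_add (U : Subgroup G) (F F' : IndM U C) (x : G ⧸ U) :
    IndM.toF U (F + F') x = IndM.toF U F x + IndM.toF U F' x := rfl

lemma toF_sub (U : Subgroup G) (F F' : IndM U C) (x : G ⧸ U) :
    IndM.toF U (F - F') x = IndM.toF U F x - IndM.toF U F' x := rfl

lemma toF_zero (U : Subgroup G) (x : G ⧸ U) : IndM.toF U (0 : IndM U C) x = 0 := rfl

lemma toF_single (U : Subgroup G) (y x : G ⧸ U) (a : C) [Decidable (y = x)] :
    IndM.toF U (IndM.single U y a) x = if y = x then a else 0 := by
  classical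
  show (Finsupp.single y a) x = _
  rw [Finsupp.single_apply]

/-- the coefficients of `g • F` -/
lemma toF_smul (U : Subgroup G) (g : G) (F : IndM U C) (x : G ⧸ U) :
    IndM.toF U (g • F) x = g • IndM.toF U F (g⁻¹ • x) := by
  classical
  induction F using IndM.induction_on with
  | h0 => rw [smul_zero, toF_zero, toF_zero, smul_zero]
  | hadd F F' hF hF' => rw [smul_add, toF_add, toF_add, hF, hF', smul_add]
  | hsingle y a =>
    rw [IndM.smul_single, toF_single, toF_single]
    by_cases h : g • y = x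
    · have h' : y = g⁻¹ • x := by rw [← h, inv_smul_smul]
      rw [if_pos h, if_pos h']
    · have h' : ¬ y = g⁻¹ • x := fun hy => h (by rw [hy, smul_inv_smul])
      rw [if_neg h, if_neg h', smul_zero]

/-- **Transfer.**  A 1-cocycle which is a coboundary on a subgroup `P` of finite index has its
`[H : P]`-th multiple a coboundary. -/
theorem transfer {H : Type} [Group H] {C : Type} [AddCommGroup C] [DistribMulAction H C]
    (P : Subgroup H) [P.FiniteIndex]
    (z : H → C) (hz : ∀ u u', z (u * u') = z u + u • z u') (y : C)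
    (hy : ∀ t ∈ P, z t = t • y - y) :
    ∃ x₀ : C, ∀ u, P.index • z u = u • x₀ - x₀ := by
  classical
  letI : Fintype (H ⧸ P) := Subgroup.fintypeQuotientOfFiniteIndex
  -- the normalised cocycle
  set z' : H → C := fun u => z u - (u • y - y) with hz'
  have hz'c : ∀ u u', z' (u * u') = z' u + u • z' u' := by
    intro u u'
    simp only [hz', hz u u', mul_smul, smul_sub]
    abel
  have hz'0 : ∀ t ∈ P, z' t = 0 := by
    intro t ht
    simp only [hz', hy t ht, sub_self]
  have hmul : ∀ (g s : H), s ∈ P → z' (g * s) = z' g := by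
    intro g s hs
    rw [hz'c g s, hz'0 s hs, smul_zero, add_zero]
  have hout : ∀ (g : H) (q : H ⧸ P), z' ((g • q).out) = z' (g * q.out) := by
    intro g q
    have h1 : ((g * q.out : H) : H ⧸ P) = g • q := by
      conv_rhs => rw [← QuotientGroup.out_eq' q]
      rfl
    have h2 : ((g • q).out)⁻¹ * (g * q.out) ∈ P := by
      rw [← QuotientGroup.eq, QuotientGroup.out_eq', h1]
    have h3 := hmul ((g • q).out) _ h2
    rw [← h3]
    congr 1
    group
  set w : C := ∑ q : H ⧸ P, z' q.out with hw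
  have hcard : Fintype.card (H ⧸ P) = P.index := by
    rw [Subgroup.index_eq_card, Nat.card_eq_fintype_card]
  have key : ∀ u, P.index • z' u = w - u • w := by
    intro u
    have h1 : u • w = ∑ q : H ⧸ P, (z' ((u • q).out) - z' u) := by
      rw [hw, Finset.smul_sum]
      refine Finset.sum_congr rfl (fun q _ => ?_)
      rw [hout u q, hz'c u q.out]
      abel
    have h2 : ∑ q : H ⧸ P, z' ((u • q).out) = w := by
      rw [hw]
      exact Fintype.sum_equiv (MulAction.toPerm u) _ _ (fun q => rfl)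
    rw [Finset.sum_sub_distrib, h2, Finset.sum_const, Finset.card_univ, hcard] at h1
    rw [h1]
    abel
  refine ⟨P.index • y - w, fun u => ?_⟩
  have h1 := key u
  have h2 : z u = z' u + (u • y - y) := by simp only [hz', sub_add_cancel]
  rw [h2, smul_add, h1, smul_sub, smul_sub, smul_comm u P.index y]
  abel

/-- **Shapiro, degree 1, `Ind`.**  If the Shapiro restriction `u ↦ f(u)(1̄)` (`u ∈ U`) of a
1-cocycle `f : G → Ind_U C` is the coboundary of `x₀`, then `f` is the coboundary of
`F(gU) = g x₀ - f(g)(gU)`. -/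
theorem shapiro_ind (U : Subgroup G) [Finite (G ⧸ U)]
    (f : G → IndM U C) (hf : ∀ g h, f (g * h) = f g + g • f h) (x₀ : C)
    (hx : ∀ u ∈ U, IndM.toF U (f u) ((1 : G) : G ⧸ U) = u • x₀ - x₀) :
    ∃ F : IndM U C, ∀ g, f g = g • F - F := by
  classical
  set Ffun : G ⧸ U → C := fun x => x.out • x₀ - IndM.toF U (f x.out) x with hFfun
  have key : ∀ a : G, Ffun (a : G ⧸ U) = a • x₀ - IndM.toF U (f a) (a : G ⧸ U) := by
    intro a
    set r : G := ((a : G ⧸ U)).out with hr
    have hra : ((r : G) : G ⧸ U) = (a : G ⧸ U) := QuotientGroup.out_eq' _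
    have hu : r⁻¹ * a ∈ U := by
      rw [← QuotientGroup.eq, hra]
    have ha : a = r * (r⁻¹ * a) := by group
    have h1 : f a = f r + r • f (r⁻¹ * a) := by
      conv_lhs => rw [ha]
      exact hf r (r⁻¹ * a)
    have h2 : r⁻¹ • ((a : G) : G ⧸ U) = ((1 : G) : G ⧸ U) := by
      rw [← hra]
      show ((r⁻¹ * r : G) : G ⧸ U) = _
      rw [inv_mul_cancel]
    have h3 : IndM.toF U (f a) (a : G ⧸ U) =
        IndM.toF U (f r) (a : G ⧸ U) + r • ((r⁻¹ * a) • x₀ - x₀) := by
      rw [h1, toF_add, toF_smul, h2, hx _ hu]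
    have h4 : r • ((r⁻¹ * a) • x₀) = a • x₀ := by
      rw [← mul_smul, mul_inv_cancel_left]
    show r • x₀ - IndM.toF U (f r) (a : G ⧸ U) = _
    rw [h3, smul_sub, h4]
    abel
  refine ⟨IndM.ofF U (Finsupp.equivFunOnFinite.symm Ffun), fun g => ?_⟩
  have hF : ∀ x, IndM.toF U (IndM.ofF U (Finsupp.equivFunOnFinite.symm Ffun)) x = Ffun x :=
    fun x => rfl
  apply indM_ext
  intro x
  induction x using QuotientGroup.induction_on with
  | H a =>
    rw [toF_sub, toF_smul, hF, hF]
    have h1 : g⁻¹ • ((a : G) : G ⧸ U) = ((g⁻¹ * a : G) : G ⧸ U) := rfl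
    rw [h1, key, key, smul_sub, ← mul_smul, mul_inv_cancel_left]
    have h2 : f a = f g + g • f (g⁻¹ * a) := by
      conv_lhs => rw [show a = g * (g⁻¹ * a) by group]
      exact hf g (g⁻¹ * a)
    have h3 : g • IndM.toF U (f (g⁻¹ * a)) ((g⁻¹ * a : G) : G ⧸ U) =
        IndM.toF U (g • f (g⁻¹ * a)) (a : G ⧸ U) := by
      rw [toF_smul, h1]
    rw [h3, h2, toF_add]
    abel

/-- **Shapiro + transfer.**  `f : G → Ind_U C` a 1-cocycle, `P` a subgroup with `[U : P ⊓ U]`
finite, and the Shapiro restriction `t ↦ f(t)(1̄)` a coboundary on `P ⊓ U`.  Then `[U : P] • f` is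
a coboundary. -/
theorem shapiro_transfer (U : Subgroup G) [Finite (G ⧸ U)] (P : Subgroup G)
    (hm : P.relIndex U ≠ 0)
    (f : G → IndM U C) (hf : ∀ g h, f (g * h) = f g + g • f h) (y : C)
    (hy : ∀ t ∈ P, t ∈ U → IndM.toF U (f t) ((1 : G) : G ⧸ U) = t • y - y) :
    ∃ c₁ : IndM U C, ∀ g, P.relIndex U • f g = g • c₁ - c₁ := by
  classical
  haveI : (P.subgroupOf U).FiniteIndex := ⟨hm⟩
  -- the Shapiro restriction
  have hone : ∀ u : U, (u : G)⁻¹ • (((1 : G) : G ⧸ U)) = ((1 : G) : G ⧸ U) := by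
    intro u
    show (((u : G)⁻¹ * 1 : G) : G ⧸ U) = _
    rw [mul_one, QuotientGroup.eq, inv_inv, mul_one]
    exact u.2
  obtain ⟨x₀, hx₀⟩ := transfer (H := U) (C := C) (P.subgroupOf U)
    (fun u => IndM.toF U (f (u : G)) ((1 : G) : G ⧸ U))
    (fun u u' => by
      show IndM.toF U (f ((u : G) * (u' : G))) _ = _ + (u : G) • _
      rw [hf, toF_add, toF_smul, hone])
    y (fun t ht => hy (t : G) (Subgroup.mem_subgroupOf.1 ht) t.2)
  obtain ⟨F, hF⟩ := shapiro_ind U (fun g => P.relIndex U • f g)
    (fun g h => by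
      show P.relIndex U • f (g * h) = P.relIndex U • f g + g • (P.relIndex U • f h)
      rw [hf, smul_add, smul_comm g (P.relIndex U) (f h)])
    x₀ (fun u hu => by
      have := hx₀ ⟨u, hu⟩
      show IndM.toF U (P.relIndex U • f u) _ = _
      rw [IndM.nsmul_apply]
      exact this)
  exact ⟨F, hF⟩

end Fermat.Agent.S55.Cap.H239
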