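import Fermat.Agent.S55.Cap.Spec
import Fermat.Agent.S55.Cap.C1H239.Transfer
import Fermat.Agent.S55.Cap.C1H239.Dict

/-!
# S55 / A8-C1 (helper239): the class modules `C(L)` of a tower datum as `G_ℚ`-modules

* `CL D L` : `C(L)` with the `G_ℚ`-action through `Gal(L/ℚ)` (type synonym);
* `jL D L : J(L) →+ C(L)`, `trCL D h : C(L) →+ C(L')`, equivariance, GD7a, GD7b, GD4;
* `exists_cap` (GD11 + GD5, coefficientwise): for `c ∈ Ind_U C(L)` there are `n` prime to `p`,
  `L' ≥ L` and `Q ∈ Ind_U J(L')` with `j(Q) = tr (n • c)`.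
-/

set_option autoImplicit false
set_option linter.unusedVariables false
set_option linter.unusedSectionVars false
set_option linter.style.haveILetI false

noncomputable section

namespace Fermat.Agent.S55.Cap.H239

open Fermat.Agent.S55.PT Fermat.Agent.S55.Tow Fermat.Agent.S55.Cap

variable {S : Finset Nat.Primes}

/-! ### generalities on `IndM` -/

section IndMGen

variable {G : Type} [Group G] (U : Subgroup G) {X Y : Type} [AddCommGroup X] [AddCommGroup Y]

lemma indM_map_eq_zero (φ : X →+ Y) (F : IndM U X) (h : ∀ x, φ (IndM.toF U F x) = 0) :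
    IndM.map U φ F = 0 := by
  apply Finsupp.ext
  intro x
  exact h x

lemma indM_exists_map_eq (φ : X →+ Y) (F : IndM U Y) (h : ∀ x, ∃ a : X, φ a = IndM.toF U F x) :
    ∃ F' : IndM U X, IndM.map U φ F' = F := by
  classical
  choose s hs using h
  refine ⟨IndM.ofF U (Finsupp.onFinset (IndM.toF U F).support
    (fun x => if IndM.toF U F x = 0 then 0 else s x) (fun x hx => ?_)), ?_⟩
  · rw [Finsupp.mem_support_iff]
    intro h0
    exact hx (by rw [if_pos h0])
  · apply Finsupp.ext
    intro x
    show φ (if IndM.toF U F x = 0 then 0 else s x) = IndM.toF U F x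
    split_ifs with h0
    · rw [map_zero, h0]
    · exact hs x

lemma indM_map_nsmul (φ : X →+ Y) (n : ℕ) (F : IndM U X) :
    IndM.map U φ (n • F) = n • IndM.map U φ F := map_nsmul _ _ _

end IndMGen

/-! ### `C(L)` as a `G_ℚ`-module -/

/-- `C(L)` with the `G_ℚ`-action through `Gal(L/ℚ)` -/
def CL (D : TowerDatum S) (L : Level S) : Type := (D.C L).V

instance CL.instAddCommGroup (D : TowerDatum S) (L : Level S) : AddCommGroup (CL D L) :=
  inferInstanceAs (AddCommGroup (D.C L).V)

/-- the underlying element of `C(L)` -/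
def CL.val (D : TowerDatum S) (L : Level S) : CL D L →+ (D.C L).V := AddMonoidHom.id _

/-- the element of `CL D L` given by an element of `C(L)` -/
def CL.of (D : TowerDatum S) (L : Level S) : (D.C L).V →+ CL D L := AddMonoidHom.id _

/-- the action of `H` on the carrier of a representation -/
@[reducible] def repAct {k H : Type} [CommRing k] [Group H] (A : Rep.{0, 0, 0} k H) :
    DistribMulAction H A.V where
  smul g a := A.ρ g a
  one_smul a := by
    show A.ρ 1 a = a
    rw [map_one, Module.End.one_apply]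
  mul_smul g h a := by
    show A.ρ (g * h) a = A.ρ g (A.ρ h a)
    rw [map_mul, Module.End.mul_apply]
  smul_zero g := map_zero (A.ρ g)
  smul_add g a b := map_add (A.ρ g) a b

/-- the additive map underlying a morphism of representations -/
def homAdd {k H : Type} [CommRing k] [Group H] {A B : Rep.{0, 0, 0} k H} (f : A ⟶ B) :
    A.V →+ B.V := f.hom.toLinearMap.toAddMonoidHom

@[simp] lemma homAdd_apply {k H : Type} [CommRing k] [Group H] {A B : Rep.{0, 0, 0} k H}
    (f : A ⟶ B) (a : A.V) : homAdd f a = f.hom a := rfl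

instance CL.instDistribMulAction (D : TowerDatum S) (L : Level S) :
    DistribMulAction Tow.GQ (CL D L) :=
  letI : DistribMulAction L.Gal (D.C L).V := repAct (D.C L)
  DistribMulAction.compHom (D.C L).V (QuotientGroup.mk' L.U)

lemma CL.val_smul (D : TowerDatum S) (L : Level S) (g : Tow.GQ) (c : CL D L) :
    CL.val D L (g • c) = (D.C L).ρ (QuotientGroup.mk g) (CL.val D L c) := rfl

lemma CL.val_injective (D : TowerDatum S) (L : Level S) : Function.Injective (CL.val D L) :=
  fun _ _ h => h

@[simp] lemma CL.val_of (D : TowerDatum S) (L : Level S) (c : (D.C L).V) :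
    CL.val D L (CL.of D L c) = c := rfl

/-- `j = ∑_q j_q : J(L) → C(L)` -/
def jL (D : TowerDatum S) (L : Level S) : JL L →+ CL D L :=
  (CL.of D L).comp
    (∑ q : ↥S, (homAdd (D.j L q.1)).comp (JL.proj L q))

lemma val_jL (D : TowerDatum S) (L : Level S) (y : JL L) :
    CL.val D L (jL D L y) = ∑ q : ↥S, (D.j L q.1).hom (JL.proj L q y) := by
  show (∑ q : ↥S, (homAdd (D.j L q.1)).comp (JL.proj L q)) y = _
  rw [AddMonoidHom.finsetSum_apply]
  rfl

lemma jL_smul (D : TowerDatum S) (L : Level S) (g : Tow.GQ) (y : JL L) :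
    jL D L (g • y) = g • jL D L y := by
  apply CL.val_injective
  rw [CL.val_smul, val_jL, val_jL, map_sum]
  apply Finset.sum_congr rfl
  intro q _
  rw [JL.proj_smul]
  exact Rep.hom_comm_apply (D.j L q.1) (QuotientGroup.mk g) (JL.proj L q y)

/-- the transition map `C(L) → C(L')` -/
def trCL (D : TowerDatum S) {L L' : Level S} (h : L ≤ L') : CL D L →+ CL D L' :=
  (CL.of D L').comp ((homAdd (D.tr h)).comp (CL.val D L))

lemma val_trCL (D : TowerDatum S) {L L' : Level S} (h : L ≤ L') (c : CL D L) :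
    CL.val D L' (trCL D h c) = (D.tr h).hom (CL.val D L c) := rfl

lemma trCL_smul (D : TowerDatum S) {L L' : Level S} (h : L ≤ L') (g : Tow.GQ) (c : CL D L) :
    trCL D h (g • c) = g • trCL D h c := by
  apply CL.val_injective
  rw [CL.val_smul, val_trCL, val_trCL, CL.val_smul]
  exact Rep.hom_comm_apply (D.tr h) (QuotientGroup.mk g : L'.Gal) (CL.val D L c)

section Good

variable {p : ℕ} {D : TowerDatum S} (hD : D.IsGoodMu p)
include hD

/-- GD7a -/
lemma trCL_jL {L L' : Level S} (h : L ≤ L') (y : JL L) :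
    trCL D h (jL D L y) = jL D L' (trJL h y) := by
  apply CL.val_injective
  rw [val_trCL, val_jL, val_jL, map_sum]
  apply Finset.sum_congr rfl
  intro q _
  rw [proj_trJL]
  exact hD.gd7a h q.1 q.2 (JL.proj L q y)

/-- GD7b -/
lemma trCL_trCL {L L' L'' : Level S} (h : L ≤ L') (h' : L' ≤ L'') (c : CL D L) :
    trCL D h' (trCL D h c) = trCL D (h.trans h') c := by
  apply CL.val_injective
  rw [val_trCL, val_trCL, val_trCL]
  exact hD.gd7b h h' (CL.val D L c)

/-- GD4 -/
lemma jL_eq_zero_iff (L : Level S) (y : JL L) :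
    jL D L y = 0 ↔ ∃ e : L.units.V, L.IsSUnit e ∧ y = diagL L e := by
  have h0 : jL D L y = 0 ↔ ∑ q : ↥S, (D.j L q.1).hom (JL.proj L q y) = 0 := by
    rw [← val_jL]
    exact ⟨fun h => by rw [h, map_zero], fun h => CL.val_injective D L (by rw [h, map_zero])⟩
  rw [h0]
  constructor
  · intro h
    obtain ⟨e, he, hy⟩ := (hD.gd4 L (fun q => JL.proj L q y)).1 h
    exact ⟨e, he, JL.ext hy⟩
  · rintro ⟨e, he, rfl⟩
    exact (hD.gd4 L _).2 ⟨e, he, fun q => rfl⟩

/-- an element of `J(L)` which lies in `𝔼` (inside `𝕁`) is killed by `j` -/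
lemma jL_eq_zero_of_ofJ_eq (L : Level S) (y : JL L) (a : SU S) (h : ofJ L y = iEJ S a) :
    jL D L y = 0 := by
  by_cases hS : S.Nonempty
  · have hinv : ∀ u ∈ L.U, u • a = a := by
      intro u hu
      apply iEJ_injective S hS
      rw [iEJ_smul, ← h, ← ofJ_smul]
      congr 1
      apply JL.ext
      intro q
      rw [JL.proj_smul]
      have h1 : (QuotientGroup.mk u : L.Gal) = 1 := (QuotientGroup.eq_one_iff u).2 hu
      rw [h1, map_one, Module.End.one_apply]
    obtain ⟨e, he, rfl⟩ := exists_ofE L a hinv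
    rw [jL_eq_zero_iff hD]
    refine ⟨e, he, ofJ_injective L ?_⟩
    rw [h, ofJ_diagL L e he]
  · rw [Finset.not_nonempty_iff_eq_empty] at hS
    subst hS
    apply CL.val_injective
    rw [val_jL, map_zero]
    exact Finset.sum_of_isEmpty _

end Good

/-! ### capitulation, coefficientwise -/

section Cap

variable {p : ℕ} [Fact p.Prime] {D : TowerDatum S} (hD : D.IsGoodMu p) (hT : ClTorsion D)
include hD hT

/-- GD11 + GD5 for one element of `C(L)` -/
lemma exists_cap_one (L : Level S) (a : CL D L) :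
    ∃ (n : ℕ) (L' : Level S) (h : L ≤ L') (y : JL L'), n.Coprime p ∧
      jL D L' y = trCL D h (n • a) := by
  obtain ⟨N, hN0, hN⟩ := hT L a
  obtain ⟨k, n, hn, hNn⟩ := Nat.exists_eq_pow_mul_and_not_dvd hN0.ne' p
    (Fact.out : p.Prime).one_lt.ne'
  have h1 : D.IsLocalSum L (p ^ k • (n • CL.val D L a)) := by
    rw [← mul_nsmul', ← hNn]
    exact hN
  obtain ⟨L', h, x, hx⟩ := hD.gd5 L (n • CL.val D L a) k h1
  refine ⟨n, L', h, JL.mk L' x, ?_, ?_⟩
  · exact ((Nat.Prime.coprime_iff_not_dvd (Fact.out : p.Prime)).2 hn).symm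
  · apply CL.val_injective
    rw [val_jL, val_trCL, map_nsmul]
    exact hx.symm

/-- change of level and of multiplier -/
lemma cap_mono (U : Subgroup Tow.GQ) {L L' L'' : Level S} (h : L ≤ L') (h' : L' ≤ L'')
    (c : IndM U (CL D L)) (n k : ℕ) (Q : IndM U (JL L'))
    (hQ : IndM.map U (jL D L') Q = IndM.map U (trCL D h) (n • c)) :
    IndM.map U (jL D L'') (k • IndM.map U (trJL h') Q) =
      IndM.map U (trCL D (h.trans h')) ((k * n) • c) := by
  have e1 : IndM.map U (jL D L'') (IndM.map U (trJL h') Q) =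
      IndM.map U (trCL D h') (IndM.map U (jL D L') Q) := by
    have e0 : (jL D L'').comp (trJL h') = (trCL D h').comp (jL D L') :=
      AddMonoidHom.ext (fun y => (trCL_jL hD h' y).symm)
    rw [← IndM.map_comp, ← IndM.map_comp, e0]
  have e2 : IndM.map U (trCL D h') (IndM.map U (trCL D h) (n • c)) =
      IndM.map U (trCL D (h.trans h')) (n • c) := by
    have e0 : (trCL D h').comp (trCL D h) = trCL D (h.trans h') :=
      AddMonoidHom.ext (fun y => trCL_trCL hD h h' y)
    rw [← IndM.map_comp, e0]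
  rw [indM_map_nsmul, e1, hQ, e2, mul_nsmul', indM_map_nsmul, indM_map_nsmul, indM_map_nsmul]

/-- **capitulation**, coefficientwise: GD11 + GD5 + GD7 -/
theorem exists_cap (U : Subgroup Tow.GQ) (L : Level S) (c : IndM U (CL D L)) :
    ∃ (n : ℕ) (L' : Level S) (h : L ≤ L') (Q : IndM U (JL L')), n.Coprime p ∧
      IndM.map U (jL D L') Q = IndM.map U (trCL D h) (n • c) := by
  induction c using IndM.induction_on with
  | h0 =>
    refine ⟨1, L, le_rfl, 0, Nat.coprime_one_left p, ?_⟩
    rw [smul_zero, map_zero, map_zero]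
  | hadd c c' hc hc' =>
    obtain ⟨n, L', h, Q, hn, hQ⟩ := hc
    obtain ⟨n', L'', h', Q', hn', hQ'⟩ := hc'
    have k1 := cap_mono hD hT U h (le_capSup_left S L' L'') c n n' Q hQ
    have k2 := cap_mono hD hT U h' (le_capSup_right S L' L'') c' n' n Q' hQ'
    refine ⟨n * n', capSup S L' L'', h.trans (le_capSup_left S L' L''),
      n' • IndM.map U (trJL (le_capSup_left S L' L'')) Q +
        n • IndM.map U (trJL (le_capSup_right S L' L'')) Q',
      Nat.Coprime.mul_left hn hn', ?_⟩
    rw [map_add, k1, k2, smul_add, map_add, mul_comm n' n]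
  | hsingle x a =>
    obtain ⟨n, L', h, y, hn, hy⟩ := exists_cap_one hD hT L a
    refine ⟨n, L', h, IndM.single U x y, hn, ?_⟩
    have : n • IndM.single U x a = IndM.single U x (n • a) := by
      show IndM.ofF U (n • Finsupp.single x a) = IndM.ofF U (Finsupp.single x (n • a))
      rw [Finsupp.smul_single]
    rw [this, IndM.map_single, IndM.map_single, hy]

end Cap

end Fermat.Agent.S55.Cap.H239
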